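import Mathlib
import Fermat.Agent.LT.H17.Board

/-!
# Row LT, WALL-ARCH skeleton (D1) of squad S25/S10 -- architect helper130, OFF-MAIN

ADELIC form.  Every definition is written out in full (no abstract notion, no parameter
standing for an automorphic object).

## A0 (objects)
For a number field `K`, `G = GL₂(𝔸_K)` (`𝔸_K = NumberField.AdeleRing (𝓞 K) K`).
`IsCuspEig K π` : the Hecke eigensystem `π` (Prelude `AutomorphicForm.HeckeEigensystem K ℂ`:
`level`, `a`, `b`) is CUSPIDAL AUTOMORPHIC: there is a nonzero function `φ : G → ℂ`, continuous,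
bounded, left `GL₂(K)`-invariant, with a unitary central character, right invariant under the
principal congruence subgroup of level `π.level`, cuspidal (constant term zero), eigenfunction of
`T_v` with eigenvalue `√(N v) · π.a v` and of `S_v` with eigenvalue `π.b v` at every `v ∤ π.level`.
(Bounded + finite volume mod centre ⇒ `φ ∈ L²_cusp`; Hecke-eigen at almost all places ⇒ `φ`
lies in the isotypic part of ONE cuspidal automorphic representation: strong multiplicity one.)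
`IsHolWtOne π` (over `ℚ`): in addition `φ (g r(θ)) = e^{± i θ} φ g` and
`z = x + i y ↦ y^{-1/2} φ (g_z g_f)` is holomorphic on the upper half plane for every finite `g_f`.

## Stations and data
`F = fieldF ρ = ℚ(√-3)`, `E = fieldE ρ` (the `S₃`-sextic field), as intermediate fields of `ℚ̄`.
`SeedData / MidData / BotData` record, at almost all primes `p` and all places over `p`, the
Satake-power identities of base change in terms of `g = ρ(Frob_p)` (only traces of `Ψ` on `Q8`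
occur, so no choice of arithmetic/geometric Frobenius matters).
`SeedAt`, `MidAt`, `BotAt`, `HolAt`: existence of a cuspidal eigensystem with these data over
`E`, `F`, `ℚ`, and over `ℚ` of holomorphic weight-one type.

## Leaves (frozen Props) and the proved top
`A2` (SEED over the sextic field `E`), `A3c` (cubic descent `E/F`), `A3q` (quadratic descent
`F/ℚ`), `PAR` (parity), `A6` (dictionary), and
`wall_of_leaves : A2 → A3c → A3q → PAR → A6 → LTB.WallC`.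
Proof plans, sub-leaves, references, prerequisites: `coord/LT-WALL-helper130.md` (D2).
-/

set_option autoImplicit false

open AutomorphicForm FLT.ExplicitLift EisensteinWeightOne
open WeierstrassCurve CongruenceSubgroup
open IsDedekindDomain NumberField
open scoped MatrixGroups

noncomputable section

namespace Fermat.Agent.LT.H130

local notation "Γℚ" => (AlgebraicClosure ℚ ≃ₐ[ℚ] AlgebraicClosure ℚ)

/-! ## A0.1  The adelic group and its components -/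

section Adelic

variable (K : Type) [Field K] [NumberField K]

/-- `GL₂(𝔸_K)`. -/
abbrev GA : Type := GL (Fin 2) (AdeleRing (𝓞 K) K)

variable {K}

/-- The component of `g ∈ GL₂(𝔸_K)` at the finite place `v`. -/
def finComp (g : GA K) (v : HeightOneSpectrum (𝓞 K)) :
    Matrix (Fin 2) (Fin 2) (v.adicCompletion K) :=
  fun i j => ((g : Matrix (Fin 2) (Fin 2) (AdeleRing (𝓞 K) K)) i j).2 v

/-- The component of `g ∈ GL₂(𝔸_K)` at the infinite place `u`. -/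
def infComp (g : GA K) (u : InfinitePlace K) : Matrix (Fin 2) (Fin 2) u.Completion :=
  fun i j => ((g : Matrix (Fin 2) (Fin 2) (AdeleRing (𝓞 K) K)) i j).1 u

/-- `h` is the element of `GL₂(𝔸_K)` with component `m` at the finite place `v` and `1` at
every other place. -/
def SuppFin (v : HeightOneSpectrum (𝓞 K)) (m : Matrix (Fin 2) (Fin 2) (v.adicCompletion K))
    (h : GA K) : Prop :=
  finComp h v = m ∧ (∀ w : HeightOneSpectrum (𝓞 K), w ≠ v → finComp h w = 1) ∧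
    ∀ u : InfinitePlace K, infComp h u = 1

/-- `g` is a FINITE adelic matrix: all archimedean components are `1`. -/
def IsFin (g : GA K) : Prop := ∀ u : InfinitePlace K, infComp g u = 1

/-- `h` has all finite components `1` and archimedean components (read in `ℂ`) equal to `m`. -/
def SuppInf (m : Matrix (Fin 2) (Fin 2) ℂ) (h : GA K) : Prop :=
  (∀ v : HeightOneSpectrum (𝓞 K), finComp h v = 1) ∧
    ∀ (u : InfinitePlace K) (i j : Fin 2),
      InfinitePlace.Completion.extensionEmbedding u (infComp h u i j) = m i j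

/-- The principal congruence subgroup `K(𝔫) ⊂ GL₂(𝔸_K^f)`. -/
def InLevel (𝔫 : Ideal (𝓞 K)) (k : GA K) : Prop :=
  IsFin k ∧ ∀ (v : HeightOneSpectrum (𝓞 K)) (i j : Fin 2),
    finComp k v i j ∈ v.adicCompletionIntegers K ∧
    finComp k⁻¹ v i j ∈ v.adicCompletionIntegers K ∧
    ∃ d ∈ 𝔫, ∃ c ∈ v.adicCompletionIntegers K,
      finComp k v i j - (1 : Matrix (Fin 2) (Fin 2) (v.adicCompletion K)) i j
        = ((d : K) : v.adicCompletion K) * c

/-- `ϖ` is a uniformiser of `K_v`. -/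
def IsUnif (v : HeightOneSpectrum (𝓞 K)) (ϖ : v.adicCompletion K) : Prop :=
  Valued.v ϖ < 1 ∧ ∀ y : v.adicCompletion K, Valued.v y < 1 → Valued.v y ≤ Valued.v ϖ

/-- `T` is a complete set of representatives of `𝒪_v / ϖ 𝒪_v`. -/
def IsResidueSystem (v : HeightOneSpectrum (𝓞 K)) (T : Finset (v.adicCompletion K)) : Prop :=
  (∀ x ∈ T, x ∈ v.adicCompletionIntegers K) ∧
  (∀ x ∈ T, ∀ y ∈ T, x ≠ y → Valued.v (x - y) = 1) ∧
  ∀ z ∈ v.adicCompletionIntegers K, ∃ x ∈ T, Valued.v (z - x) < 1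

end Adelic

/-! ## A0.2  Cuspidal automorphic Hecke eigensystems over a number field -/

section Cusp

open MeasureTheory

variable (K : Type) [Field K] [NumberField K]

/-- `φ : GL₂(𝔸_K) → ℂ` is a cuspidal automorphic eigenfunction with the eigensystem `π`. -/
structure CuspEigFun (π : HeckeEigensystem K ℂ) (φ : GA K → ℂ) : Prop where
  /-- `φ ≠ 0` -/
  ne_zero : ∃ g, φ g ≠ 0
  cont : Continuous φ
  bdd : ∃ C : ℝ, ∀ g, ‖φ g‖ ≤ C
  /-- left invariance under `GL₂(K)` -/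
  left_inv : ∀ (γ : GL (Fin 2) K) (g : GA K),
    φ (Matrix.GeneralLinearGroup.map (algebraMap K (AdeleRing (𝓞 K) K)) γ * g) = φ g
  /-- unitary central character -/
  central : ∃ ω : (AdeleRing (𝓞 K) K)ˣ → ℂ, (∀ z, ‖ω z‖ = 1) ∧
    ∀ (z : (AdeleRing (𝓞 K) K)ˣ) (h : GA K),
      (h : Matrix (Fin 2) (Fin 2) (AdeleRing (𝓞 K) K))
          = (z : AdeleRing (𝓞 K) K) • (1 : Matrix (Fin 2) (Fin 2) (AdeleRing (𝓞 K) K)) →
      ∀ g, φ (h * g) = ω z * φ g
  /-- right invariance under the principal congruence subgroup of level `π.level` -/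
  level_inv : ∀ k : GA K, InLevel π.level k → ∀ g, φ (g * k) = φ g
  /-- CUSPIDALITY: the constant term along the unipotent radical vanishes
  (`∫_{𝔸_K / K} φ (n(x) g) dx = 0`, Haar measure of the compact group `𝔸_K / K`) -/
  cusp : ∀ U : AdeleRing (𝓞 K) K → GA K,
    (∀ x, ((U x : GA K) : Matrix (Fin 2) (Fin 2) (AdeleRing (𝓞 K) K)) = !![1, x; 0, 1]) →
    ∀ (g : GA K)
      (μ : @Measure (AdeleRing (𝓞 K) K ⧸ AdeleRing.principalSubgroup (𝓞 K) K) (borel _)),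
      @Measure.IsAddHaarMeasure _ _ _ (borel _) μ →
      @integral _ _ _ _ (borel _) μ (fun x => φ (U (Quotient.out x) * g)) = 0
  /-- HECKE: at every `v ∤ π.level`, `T_v φ = √(N v) · a_v · φ` and `S_v φ = b_v · φ`
  (`K_v diag(ϖ, 1) K_v = ⊔_x [ϖ, x; 0, 1] K_v ⊔ [1, 0; 0, ϖ] K_v`) -/
  hecke : ∀ v : HeightOneSpectrum (𝓞 K), ¬ π.level ≤ v.asIdeal →
    ∀ ϖ : v.adicCompletion K, IsUnif v ϖ →
    ∀ T : Finset (v.adicCompletion K), IsResidueSystem v T →
    ∀ (H : v.adicCompletion K → GA K) (h' s : GA K),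
      (∀ x ∈ T, SuppFin v !![ϖ, x; 0, 1] (H x)) →
      SuppFin v !![1, 0; 0, ϖ] h' → SuppFin v !![ϖ, 0; 0, ϖ] s →
      ∀ g, (∑ x ∈ T, φ (g * H x)) + φ (g * h')
            = ((Real.sqrt (T.card : ℝ) : ℝ) : ℂ) * π.a v * φ g ∧
          φ (g * s) = π.b v * φ g

/-- **A0: `π` is a cuspidal automorphic Hecke eigensystem over `K`.** -/
def IsCuspEig (π : HeckeEigensystem K ℂ) : Prop := ∃ φ : GA K → ℂ, CuspEigFun K π φ

end Cusp

/-- **A0 (weight one): `π` (over `ℚ`) is cuspidal automorphic of HOLOMORPHIC WEIGHT ONE type.** -/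
def IsHolWtOne (π : HeckeEigensystem ℚ ℂ) : Prop :=
  ∃ φ : GA ℚ → ℂ, CuspEigFun ℚ π φ ∧
    (∃ s : ℤ, (s = 1 ∨ s = -1) ∧ ∀ (θ : ℝ) (r : GA ℚ),
      SuppInf !![(Real.cos θ : ℂ), (Real.sin θ : ℂ); -(Real.sin θ : ℂ), (Real.cos θ : ℂ)] r →
      ∀ g, φ (g * r) = Complex.exp ((s : ℂ) * (θ : ℂ) * Complex.I) * φ g) ∧
    ∀ gf : GA ℚ, IsFin gf → ∀ Gz : ℂ → GA ℚ,
      (∀ z : ℂ, 0 < z.im → SuppInf !![(z.im : ℂ), (z.re : ℂ); 0, 1] (Gz z)) →
      DifferentiableOn ℂ (fun z : ℂ => ((Real.sqrt z.im : ℝ) : ℂ)⁻¹ * φ (Gz z * gf))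
        {z : ℂ | 0 < z.im}

/-! ## The fields `F ⊂ E` cut out by `ρ` and the matching with `Ψ ∘ ρ` -/

/-- `ρ⁻¹(SL₂(𝔽₃))`. -/
def subSL (ρ : Γℚ →* GL (Fin 2) (ZMod 3)) : Subgroup Γℚ :=
  (Matrix.GeneralLinearGroup.det.comp ρ).ker

/-- `ρ⁻¹(Q8)`, `Q8 = {g | det g = 1, g ^ 4 = 1}` (a normal subgroup of `GL₂(𝔽₃)`; the closure is
taken only to have a `Subgroup` without a proof obligation). -/
def subQ8 (ρ : Γℚ →* GL (Fin 2) (ZMod 3)) : Subgroup Γℚ :=
  Subgroup.closure {σ | Matrix.GeneralLinearGroup.det (ρ σ) = 1 ∧ (ρ σ) ^ 4 = 1}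

/-- `F = ℚ(√-3)`, the fixed field of `ρ⁻¹(SL₂(𝔽₃))`. -/
def fieldF (ρ : Γℚ →* GL (Fin 2) (ZMod 3)) : IntermediateField ℚ (AlgebraicClosure ℚ) :=
  IntermediateField.fixedField (subSL ρ)

/-- `E`, the `S₃`-sextic field, fixed field of `ρ⁻¹(Q8)`. -/
def fieldE (ρ : Γℚ →* GL (Fin 2) (ZMod 3)) : IntermediateField ℚ (AlgebraicClosure ℚ) :=
  IntermediateField.fixedField (subQ8 ρ)

/-! ### Frobenius data.  `g = ρ(Frob_p) ∈ GL₂(𝔽₃)`, `ḡ ∈ GL₂(𝔽₃)/Q8 ≅ S₃ = Gal(E/ℚ)`. -/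

/-- `g ∈ Q8 = {det = 1, g⁴ = 1}` (the normal Sylow 2-subgroup of `SL₂(𝔽₃)`). -/
def InQ8 (g : GL (Fin 2) (ZMod 3)) : Prop :=
  Matrix.GeneralLinearGroup.det g = 1 ∧ g ^ 4 = 1

open scoped Classical in
/-- The order of `ḡ` in `S₃`: the residue degree in `E/ℚ` of the places over `p`. -/
def ordQ8 (g : GL (Fin 2) (ZMod 3)) : ℕ :=
  if InQ8 g then 1 else if InQ8 (g ^ 2) then 2 else 3

open scoped Classical in
/-- The residue degree in `F/ℚ` of the places over `p`: `1` if `det g = 1`, else `2`. -/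
def ordSL (g : GL (Fin 2) (ZMod 3)) : ℕ :=
  if Matrix.GeneralLinearGroup.det g = 1 then 1 else 2

/-- The trace of `Ψ g`, read in `ℂ`. -/
def trΨ (Ψ : GL (Fin 2) (ZMod 3) →* GL (Fin 2) (ℤ√(-2))) (ι : ℤ√(-2) →+* ℂ)
    (g : GL (Fin 2) (ZMod 3)) : ℂ :=
  ι (((Ψ g : GL (Fin 2) (ℤ√(-2))) : Matrix (Fin 2) (Fin 2) (ℤ√(-2))).trace)

/-- A property `P w g` holds for almost all primes `p`, every Frobenius element `σ` at `p`
(`g = ρ σ`) and every place `w` of `K` over `p`. -/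
def AlmostAllFrob (K : Type) [Field K] [NumberField K] (ρ : Γℚ →* GL (Fin 2) (ZMod 3))
    (P : HeightOneSpectrum (𝓞 K) → GL (Fin 2) (ZMod 3) → Prop) : Prop :=
  ∃ S : Finset ℕ, ∀ p : ℕ, p.Prime → p ∉ S →
    ∀ A : ValuationSubring (AlgebraicClosure ℚ), A.LiesOverPrime p →
      ∀ σ : Γℚ, A.IsFrobeniusAt σ p →
        ∀ w : HeightOneSpectrum (𝓞 K), ((p : ℕ) : 𝓞 K) ∈ w.asIdeal → P w (ρ σ)

/-- DATA over `E`: `π_w ↔ Ψ ρ (Frob_w)`, `Frob_w = Frob_p ^ f`, `f = ordQ8 g`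
(`Frob_w ∈ Q8 ⊂ SL₂`, so the central character is trivial). -/
def SeedData (K : Type) [Field K] [NumberField K] (ρ : Γℚ →* GL (Fin 2) (ZMod 3))
    (Ψ : GL (Fin 2) (ZMod 3) →* GL (Fin 2) (ℤ√(-2))) (ι : ℤ√(-2) →+* ℂ)
    (π : HeckeEigensystem K ℂ) : Prop :=
  AlmostAllFrob K ρ fun w g => π.a w = trΨ Ψ ι (g ^ ordQ8 g) ∧ π.b w = 1

/-- DATA over `F`: the base change of `π` to `E` is the seed (`v` a place of `F` over `p`,
`τ = Frob_v = g ^ ordSL g`, residue degree `d = ordQ8 τ ∈ {1, 3}` in `E/F`), and the central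
character is trivial. -/
def MidData (K : Type) [Field K] [NumberField K] (ρ : Γℚ →* GL (Fin 2) (ZMod 3))
    (Ψ : GL (Fin 2) (ZMod 3) →* GL (Fin 2) (ℤ√(-2))) (ι : ℤ√(-2) →+* ℂ)
    (π : HeckeEigensystem K ℂ) : Prop :=
  AlmostAllFrob K ρ fun v g =>
    satakePow (ordQ8 (g ^ ordSL g)) (π.a v) (π.b v)
        = trΨ Ψ ι ((g ^ ordSL g) ^ ordQ8 (g ^ ordSL g)) ∧
      π.b v = 1

/-- DATA over `ℚ`: the base change of `π` to `F` (Satake power `f = ordSL g`) has the data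
`MidData`.  (At the primes inert in `F` only `b_p ^ 2 = 1` is known: the PARITY ambiguity.) -/
def BotData (ρ : Γℚ →* GL (Fin 2) (ZMod 3))
    (Ψ : GL (Fin 2) (ZMod 3) →* GL (Fin 2) (ℤ√(-2))) (ι : ℤ√(-2) →+* ℂ)
    (π : HeckeEigensystem ℚ ℂ) : Prop :=
  AlmostAllFrob ℚ ρ fun w g =>
    satakePow (ordQ8 (g ^ ordSL g)) (satakePow (ordSL g) (π.a w) (π.b w)) (π.b w ^ ordSL g)
        = trΨ Ψ ι ((g ^ ordSL g) ^ ordQ8 (g ^ ordSL g)) ∧
      π.b w ^ ordSL g = 1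

/-! ## The four stations -/

/-- Station `E`: a cuspidal eigensystem over `E` with the data of `Ψ ∘ ρ|_{G_E}`. -/
def SeedAt (ρ : Γℚ →* GL (Fin 2) (ZMod 3)) (Ψ : GL (Fin 2) (ZMod 3) →* GL (Fin 2) (ℤ√(-2)))
    (ι : ℤ√(-2) →+* ℂ) : Prop :=
  ∃ (_ : NumberField (fieldE ρ)) (π : HeckeEigensystem (fieldE ρ) ℂ),
    IsCuspEig (fieldE ρ) π ∧ SeedData (fieldE ρ) ρ Ψ ι π

/-- Station `F`: a cuspidal eigensystem over `F`, trivial central character, whose base change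
to `E` is the seed. -/
def MidAt (ρ : Γℚ →* GL (Fin 2) (ZMod 3)) (Ψ : GL (Fin 2) (ZMod 3) →* GL (Fin 2) (ℤ√(-2)))
    (ι : ℤ√(-2) →+* ℂ) : Prop :=
  ∃ (_ : NumberField (fieldF ρ)) (π : HeckeEigensystem (fieldF ρ) ℂ),
    IsCuspEig (fieldF ρ) π ∧ MidData (fieldF ρ) ρ Ψ ι π

/-- Station `ℚ`: a cuspidal eigensystem over `ℚ` whose base change to `F` is the one of `MidAt`. -/
def BotAt (ρ : Γℚ →* GL (Fin 2) (ZMod 3)) (Ψ : GL (Fin 2) (ZMod 3) →* GL (Fin 2) (ℤ√(-2)))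
    (ι : ℤ√(-2) →+* ℂ) : Prop :=
  ∃ π : HeckeEigensystem ℚ ℂ, IsCuspEig ℚ π ∧ BotData ρ Ψ ι π

/-- Station `ℚ`, holomorphic: the same with `π` of holomorphic weight-one type. -/
def HolAt (ρ : Γℚ →* GL (Fin 2) (ZMod 3)) (Ψ : GL (Fin 2) (ZMod 3) →* GL (Fin 2) (ℤ√(-2)))
    (ι : ℤ√(-2) →+* ℂ) : Prop :=
  ∃ π : HeckeEigensystem ℚ ℂ, IsHolWtOne π ∧ BotData ρ Ψ ι π

/-! ## The leaves (frozen Props) -/

/-- **A2 (SEED).**  `Ψ ∘ ρ|_{G_E}` has image `Q8`, is induced from a quartic character `θ` of a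
quadratic extension `E'/E`; the dihedral form `π(θ)` over `E` (Hecke/Jacquet--Langlands). -/
def A2 : Prop :=
  ∀ (ρ : Γℚ →* GL (Fin 2) (ZMod 3)) (Ψ : GL (Fin 2) (ZMod 3) →* GL (Fin 2) (ℤ√(-2))),
    LTB.Hyp ρ Ψ → ∃ ι : ℤ√(-2) →+* ℂ, SeedAt ρ Ψ ι

/-- **A3c (cubic cyclic DESCENT `E/F`).**  The seed is `Gal(E/F)`-invariant (its data are class
functions of `ρ(Frob)`; strong multiplicity one), hence a base change from `F` (Langlands); the
three descents are twists by the cubic characters of `E/F` and exactly one of them has trivial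
central character. -/
def A3c : Prop :=
  ∀ (ρ : Γℚ →* GL (Fin 2) (ZMod 3)) (Ψ : GL (Fin 2) (ZMod 3) →* GL (Fin 2) (ℤ√(-2)))
    (ι : ℤ√(-2) →+* ℂ), LTB.Hyp ρ Ψ → SeedAt ρ Ψ ι → MidAt ρ Ψ ι

/-- **A3q (quadratic DESCENT `F/ℚ`).**  The form of `MidAt` is `Gal(F/ℚ)`-invariant (its
conjugate has the same base change to `E` and the same central character; the fibres of base
change are twists), hence a base change from `ℚ` (Langlands). -/
def A3q : Prop :=
  ∀ (ρ : Γℚ →* GL (Fin 2) (ZMod 3)) (Ψ : GL (Fin 2) (ZMod 3) →* GL (Fin 2) (ℤ√(-2)))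
    (ι : ℤ√(-2) →+* ℂ), LTB.Hyp ρ Ψ → MidAt ρ Ψ ι → BotAt ρ Ψ ι

/-- **PAR (parity).**  A cuspidal eigensystem over `ℚ` with the data `BotData` is of holomorphic
weight-one type, not a Maass form of eigenvalue `1/4` (Rankin--Selberg mass count: in the even
case the Chebotarev average of `|a_p|²` would be `≥ 2 > 1`). -/
def PAR : Prop :=
  ∀ (ρ : Γℚ →* GL (Fin 2) (ZMod 3)) (Ψ : GL (Fin 2) (ZMod 3) →* GL (Fin 2) (ℤ√(-2)))
    (ι : ℤ√(-2) →+* ℂ), LTB.Hyp ρ Ψ → BotAt ρ Ψ ι → HolAt ρ Ψ ι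

/-- **A6 (dictionary).**  Adelic holomorphic weight one ⟹ classical `CuspForm (Gamma1 N) 1`,
normalised, with the Hecke relations of S48. -/
def A6 : Prop :=
  ∀ (ρ : Γℚ →* GL (Fin 2) (ZMod 3)) (Ψ : GL (Fin 2) (ZMod 3) →* GL (Fin 2) (ℤ√(-2)))
    (ι : ℤ√(-2) →+* ℂ), LTB.Hyp ρ Ψ → HolAt ρ Ψ ι → LTB.WallOut ρ Ψ

/-! ## The top -/

/-- **THE WALL from its five leaves.** -/
theorem wall_of_leaves (h2 : A2) (h3c : A3c) (h3q : A3q) (hpar : PAR) (h6 : A6) :
    LTB.WallC := by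
  intro ρ Ψ hyp
  obtain ⟨ι, hseed⟩ := h2 ρ Ψ hyp
  exact h6 ρ Ψ ι hyp (hpar ρ Ψ ι hyp (h3q ρ Ψ ι hyp (h3c ρ Ψ ι hyp hseed)))

end Fermat.Agent.LT.H130

end
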